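import Mathlib

/-!
# W-CHAIN, gap LL3, leaf HOM (helper56)

`Γ₀(9K)` is the kernel of a homomorphism `lam : Γ₀(3K) →* Multiplicative (ZMod 3)`,
`(a b; c d) ↦ (c / 3K) * a mod 3`.  Hence `Γ₀(9K)` is normal of index `3` in `Γ₀(3K)`, and the
parabolic element `gamma0 = (1 0; 3K 1)` maps to a generator.

Mathlib only; nothing landed imports this file.
-/

set_option autoImplicit false

open CongruenceSubgroup Matrix
open scoped MatrixGroups

namespace Fermat.Agent.W.Chain.LL3.H56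

/-- In `ZMod 3` a product equal to `1` forces the square of a factor to be `1`. -/
theorem sq_eq_one_of_mul_eq_one {x y : ZMod 3} (h : x * y = 1) : x * x = 1 := by
  revert h; revert x y; decide

/-- In `ZMod 3`, `m * a = 0` with `a` a unit forces `m = 0`. -/
theorem eq_zero_of_mul_unit {m a d : ZMod 3} (h : a * d = 1) (hm : m * a = 0) : m = 0 := by
  revert h hm; revert m a d; decide

variable (K : ℕ)

/-- membership in `Γ₀(N)` as divisibility of the lower left entry. -/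
theorem mem_Gamma0_iff_dvd (N : ℕ) (A : SL(2, ℤ)) : A ∈ Gamma0 N ↔ (N : ℤ) ∣ A 1 0 := by
  rw [Gamma0_mem, ZMod.intCast_zmod_eq_zero_iff_dvd]

/-- the quotient `c / 3K` of the lower left entry. -/
def quo (A : SL(2, ℤ)) : ℤ := A 1 0 / ((3 * K : ℕ) : ℤ)

theorem quo_spec [NeZero K] {A : SL(2, ℤ)} (hA : A ∈ Gamma0 (3 * K)) :
    A 1 0 = ((3 * K : ℕ) : ℤ) * quo K A := by
  have h := (mem_Gamma0_iff_dvd (3 * K) A).1 hA
  unfold quo
  exact (Int.mul_ediv_cancel' h).symm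

theorem det_mod3 {A : SL(2, ℤ)} (hA : A ∈ Gamma0 (3 * K)) :
    ((A 0 0 : ℤ) : ZMod 3) * ((A 1 1 : ℤ) : ZMod 3) = 1 := by
  have hdet : A 0 0 * A 1 1 - A 0 1 * A 1 0 = 1 := by
    have := A.2
    rw [Matrix.det_fin_two] at this
    exact this
  have h3 : ((A 1 0 : ℤ) : ZMod 3) = 0 := by
    rw [ZMod.intCast_zmod_eq_zero_iff_dvd]
    have h := (mem_Gamma0_iff_dvd (3 * K) A).1 hA
    exact Dvd.dvd.trans ⟨(K : ℤ), by push_cast; ring⟩ h
  have := congrArg (fun z : ℤ => (z : ZMod 3)) hdet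
  simp only [Int.cast_sub, Int.cast_mul, Int.cast_one, h3, mul_zero, sub_zero] at this
  exact this

/-- the value of `lam` in `ZMod 3`. -/
def lamVal (A : SL(2, ℤ)) : ZMod 3 := ((quo K A : ℤ) : ZMod 3) * ((A 0 0 : ℤ) : ZMod 3)

theorem quo_mul [NeZero K] {A B : SL(2, ℤ)} (hA : A ∈ Gamma0 (3 * K)) (hB : B ∈ Gamma0 (3 * K)) :
    quo K (A * B) = quo K A * B 0 0 + A 1 1 * quo K B := by
  have hK : ((3 * K : ℕ) : ℤ) ≠ 0 := by
    have : K ≠ 0 := NeZero.ne K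
    exact_mod_cast Nat.mul_ne_zero (by norm_num) this
  have hAB : (A * B) ∈ Gamma0 (3 * K) := (Gamma0 (3 * K)).mul_mem hA hB
  have e1 := quo_spec K hA
  have e2 := quo_spec K hB
  have e3 := quo_spec K hAB
  have h := (Matrix.two_mul_expl A.1 B.1).2.2.1
  have h' : (A * B) 1 0 = A 1 0 * B 0 0 + A 1 1 * B 1 0 := by
    simpa using h
  rw [e3, e1, e2] at h'
  have : ((3 * K : ℕ) : ℤ) * quo K (A * B)
      = ((3 * K : ℕ) : ℤ) * (quo K A * B 0 0 + A 1 1 * quo K B) := by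
    rw [h']; ring
  exact mul_left_cancel₀ hK this

theorem lamVal_mul [NeZero K] {A B : SL(2, ℤ)} (hA : A ∈ Gamma0 (3 * K))
    (hB : B ∈ Gamma0 (3 * K)) :
    lamVal K (A * B) = lamVal K A + lamVal K B := by
  have hq := quo_mul K hA hB
  have h00 : (A * B) 0 0 = A 0 0 * B 0 0 + A 0 1 * B 1 0 := by
    simpa using (Matrix.two_mul_expl A.1 B.1).1
  have hB3 : ((B 1 0 : ℤ) : ZMod 3) = 0 := by
    rw [ZMod.intCast_zmod_eq_zero_iff_dvd]
    have h := (mem_Gamma0_iff_dvd (3 * K) B).1 hB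
    exact Dvd.dvd.trans ⟨(K : ℤ), by push_cast; ring⟩ h
  have dA := det_mod3 K hA
  have dB := det_mod3 K hB
  have sB := sq_eq_one_of_mul_eq_one dB
  unfold lamVal
  rw [hq, h00]
  push_cast
  rw [hB3]
  have : (((quo K A : ℤ) : ZMod 3) * ((B 0 0 : ℤ) : ZMod 3)
        + ((A 1 1 : ℤ) : ZMod 3) * ((quo K B : ℤ) : ZMod 3))
      * (((A 0 0 : ℤ) : ZMod 3) * ((B 0 0 : ℤ) : ZMod 3) + ((A 0 1 : ℤ) : ZMod 3) * 0)
      = ((quo K A : ℤ) : ZMod 3) * ((A 0 0 : ℤ) : ZMod 3)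
          * (((B 0 0 : ℤ) : ZMod 3) * ((B 0 0 : ℤ) : ZMod 3))
        + (((A 0 0 : ℤ) : ZMod 3) * ((A 1 1 : ℤ) : ZMod 3))
          * (((quo K B : ℤ) : ZMod 3) * ((B 0 0 : ℤ) : ZMod 3)) := by ring
  rw [this, sB, dA]
  ring

theorem lamVal_one : lamVal K (1 : SL(2, ℤ)) = 0 := by
  unfold lamVal quo
  simp

/-- **HOM**: the homomorphism `Γ₀(3K) → ℤ/3`, `(a b; c d) ↦ (c / 3K) a`. -/
def lam [NeZero K] : Gamma0 (3 * K) →* Multiplicative (ZMod 3) where
  toFun γ := Multiplicative.ofAdd (lamVal K γ.1)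
  map_one' := by
    show Multiplicative.ofAdd (lamVal K (1 : SL(2, ℤ))) = 1
    rw [lamVal_one]; rfl
  map_mul' := by
    rintro ⟨A, hA⟩ ⟨B, hB⟩
    show Multiplicative.ofAdd (lamVal K (A * B)) = _
    rw [lamVal_mul K hA hB]
    rfl

theorem lam_apply [NeZero K] (γ : Gamma0 (3 * K)) :
    lam K γ = Multiplicative.ofAdd (lamVal K γ.1) := rfl

theorem Gamma0_nine_le : Gamma0 (9 * K) ≤ Gamma0 (3 * K) := by
  intro A hA
  rw [mem_Gamma0_iff_dvd] at hA ⊢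
  exact Dvd.dvd.trans ⟨3, by push_cast; ring⟩ hA

/-- `lamVal` vanishes exactly on `Γ₀(9K)`. -/
theorem lamVal_eq_zero_iff [NeZero K] {A : SL(2, ℤ)} (hA : A ∈ Gamma0 (3 * K)) :
    lamVal K A = 0 ↔ A ∈ Gamma0 (9 * K) := by
  have e1 := quo_spec K hA
  have dA := det_mod3 K hA
  constructor
  · intro h
    have hq : ((quo K A : ℤ) : ZMod 3) = 0 := eq_zero_of_mul_unit dA h
    rw [ZMod.intCast_zmod_eq_zero_iff_dvd] at hq
    obtain ⟨t, ht⟩ := hq
    rw [mem_Gamma0_iff_dvd]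
    refine ⟨t, ?_⟩
    rw [e1, ht]; push_cast; ring
  · intro h
    rw [mem_Gamma0_iff_dvd] at h
    obtain ⟨t, ht⟩ := h
    have hK : ((3 * K : ℕ) : ℤ) ≠ 0 := by
      have : K ≠ 0 := NeZero.ne K
      exact_mod_cast Nat.mul_ne_zero (by norm_num) this
    have hq : quo K A = 3 * t := by
      have : ((3 * K : ℕ) : ℤ) * quo K A = ((3 * K : ℕ) : ℤ) * (3 * t) := by
        rw [← e1, ht]; push_cast; ring
      exact mul_left_cancel₀ hK this
    unfold lamVal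
    rw [hq]
    have : (((3 * t : ℤ)) : ZMod 3) = 0 := by
      rw [ZMod.intCast_zmod_eq_zero_iff_dvd]; exact ⟨t, rfl⟩
    rw [this, zero_mul]

/-- **HOM (kernel)**: `ker lam = Γ₀(9K)` inside `Γ₀(3K)`. -/
theorem lam_ker [NeZero K] :
    (lam K).ker = (Gamma0 (9 * K)).subgroupOf (Gamma0 (3 * K)) := by
  ext γ
  rw [MonoidHom.mem_ker, Subgroup.mem_subgroupOf, lam_apply]
  rw [← lamVal_eq_zero_iff K γ.2]
  constructor
  · intro h
    have := congrArg Multiplicative.toAdd h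
    simpa using this
  · intro h
    rw [h]; rfl

/-- `Γ₀(9K)` is normal in `Γ₀(3K)`. -/
theorem normal_Gamma0_nine [NeZero K] :
    ((Gamma0 (9 * K)).subgroupOf (Gamma0 (3 * K))).Normal := by
  rw [← lam_ker K]
  exact MonoidHom.normal_ker _

/-- the parabolic element `(1 0; 3K 1)`. -/
def gamma0Mat : SL(2, ℤ) :=
  ⟨!![1, 0; ((3 * K : ℕ) : ℤ), 1], by simp [Matrix.det_fin_two]⟩

theorem gamma0Mat_mem : gamma0Mat K ∈ Gamma0 (3 * K) := by
  rw [mem_Gamma0_iff_dvd]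
  simp [gamma0Mat]

/-- the parabolic element `(1 0; 3K 1)` of `Γ₀(3K)`. -/
def gamma0 : Gamma0 (3 * K) := ⟨gamma0Mat K, gamma0Mat_mem K⟩

theorem lamVal_gamma0 [NeZero K] : lamVal K (gamma0Mat K) = 1 := by
  have hK : ((3 * K : ℕ) : ℤ) ≠ 0 := by
    have : K ≠ 0 := NeZero.ne K
    exact_mod_cast Nat.mul_ne_zero (by norm_num) this
  unfold lamVal quo
  have h10 : (gamma0Mat K) 1 0 = ((3 * K : ℕ) : ℤ) := by simp [gamma0Mat]
  have h00 : (gamma0Mat K) 0 0 = 1 := by simp [gamma0Mat]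
  rw [h10, h00, Int.ediv_self hK]
  simp

theorem lam_gamma0 [NeZero K] : lam K (gamma0 K) = Multiplicative.ofAdd (1 : ZMod 3) := by
  rw [lam_apply]
  show Multiplicative.ofAdd (lamVal K (gamma0Mat K)) = _
  rw [lamVal_gamma0]

/-- **HOM (surjectivity)**. -/
theorem lam_surjective [NeZero K] : Function.Surjective (lam K) := by
  intro x
  have hx : ∃ n : ℕ, x = Multiplicative.ofAdd ((n : ZMod 3)) := by
    refine ⟨(Multiplicative.toAdd x).val, ?_⟩
    simp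
  obtain ⟨n, rfl⟩ := hx
  refine ⟨gamma0 K ^ n, ?_⟩
  rw [map_pow, lam_gamma0, ← ofAdd_nsmul]
  simp

/-- **HOM (index)**: `Γ₀(9K)` has index `3` in `Γ₀(3K)`. -/
theorem index_Gamma0_nine [NeZero K] :
    ((Gamma0 (9 * K)).subgroupOf (Gamma0 (3 * K))).index = 3 := by
  rw [← lam_ker K, Subgroup.index_ker, MonoidHom.range_eq_top.2 (lam_surjective K)]
  simp [Nat.card_eq_fintype_card]

/-- **HOM (coset decomposition)**: every element of `Γ₀(3K)` is `gamma0 ^ i * x` with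
`x ∈ Γ₀(9K)` and `i < 3`. -/
theorem exists_pow_mul [NeZero K] (γ : Gamma0 (3 * K)) :
    ∃ i : ℕ, i < 3 ∧ ∃ x : Gamma0 (3 * K), x.1 ∈ Gamma0 (9 * K) ∧ γ = gamma0 K ^ i * x := by
  set i : ℕ := (Multiplicative.toAdd (lam K γ)).val with hi
  have hlt : i < 3 := ZMod.val_lt _
  refine ⟨i, hlt, (gamma0 K ^ i)⁻¹ * γ, ?_, by group⟩
  have hker : (gamma0 K ^ i)⁻¹ * γ ∈ (lam K).ker := by
    rw [MonoidHom.mem_ker, map_mul, map_inv, map_pow, lam_gamma0, ← ofAdd_nsmul]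
    have : (i • (1 : ZMod 3)) = Multiplicative.toAdd (lam K γ) := by
      simp [hi]
    rw [this]
    simp
  rw [lam_ker K, Subgroup.mem_subgroupOf] at hker
  exact hker

/-- `gamma0 ^ 3 ∈ Γ₀(9K)`. -/
theorem gamma0_pow_three_mem [NeZero K] : ((gamma0 K) ^ 3).1 ∈ Gamma0 (9 * K) := by
  have hker : (gamma0 K) ^ 3 ∈ (lam K).ker := by
    rw [MonoidHom.mem_ker, map_pow, lam_gamma0, ← ofAdd_nsmul]
    have : (3 • (1 : ZMod 3)) = 0 := by decide
    rw [this]; rfl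
  rw [lam_ker K, Subgroup.mem_subgroupOf] at hker
  exact hker

end Fermat.Agent.W.Chain.LL3.H56
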