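import Mathlib
import Fermat.Agent.W.Chain.LL3.H56_Hom

/-!
# W-CHAIN, gap LL3, leaf EXT (helper56)

Abstract extension lemma: let `lam : G →* Multiplicative (ZMod n)` with `lam g₀ = ofAdd 1`,
and `ψ : ker lam → A` an additive character that is invariant under conjugation by `G` and kills
`g₀ ^ n`.  Then `ψ` extends (uniquely) to `φ : G → A` with `φ g₀ = 0`.

Specialised to `Γ₀(9K) ⊲ Γ₀(3K)` (leaf HOM): a conjugation-invariant `ψ : Γ₀(9K) → A` with
`ψ (gamma0 ^ 3) = 0` extends to `Γ₀(3K)`.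
-/

set_option autoImplicit false

open CongruenceSubgroup Matrix
open scoped MatrixGroups

namespace Fermat.Agent.W.Chain.LL3.H56

section abstract

variable {G : Type*} [Group G] {n : ℕ} [NeZero n] (lam : G →* Multiplicative (ZMod n))
  (g₀ : G)

/-- the exponent `i(g) ∈ {0, …, n-1}` with `lam g = lam (g₀ ^ i)`. -/
def expo (g : G) : ℕ := (Multiplicative.toAdd (lam g)).val

theorem expo_lt (g : G) : expo lam g < n := ZMod.val_lt _

variable {lam} {g₀}

theorem lam_pow_expo (h₀ : lam g₀ = Multiplicative.ofAdd (1 : ZMod n)) (g : G) :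
    lam (g₀ ^ expo lam g) = lam g := by
  rw [map_pow, h₀, ← ofAdd_nsmul]
  have : (expo lam g • (1 : ZMod n)) = Multiplicative.toAdd (lam g) := by
    simp [expo]
  rw [this]
  rfl

theorem core_mem_ker (h₀ : lam g₀ = Multiplicative.ofAdd (1 : ZMod n)) (g : G) :
    (g₀ ^ expo lam g)⁻¹ * g ∈ lam.ker := by
  rw [MonoidHom.mem_ker, map_mul, map_inv, lam_pow_expo h₀]
  simp

omit [NeZero n] in
theorem pow_n_mem_ker (h₀ : lam g₀ = Multiplicative.ofAdd (1 : ZMod n)) :
    g₀ ^ n ∈ lam.ker := by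
  rw [MonoidHom.mem_ker, map_pow, h₀, ← ofAdd_nsmul]
  have : (n • (1 : ZMod n)) = 0 := by simp
  rw [this]; rfl

/-- the part of `g` in the kernel. -/
def core (h₀ : lam g₀ = Multiplicative.ofAdd (1 : ZMod n)) (g : G) : lam.ker :=
  ⟨(g₀ ^ expo lam g)⁻¹ * g, core_mem_ker h₀ g⟩

theorem expo_mul_cases (g g' : G) :
    expo lam g + expo lam g' = expo lam (g * g') ∨
      expo lam g + expo lam g' = expo lam (g * g') + n := by
  have hi := expo_lt lam g
  have hj := expo_lt lam g'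
  have hk := expo_lt lam (g * g')
  have hmod : expo lam (g * g') = (expo lam g + expo lam g') % n := by
    unfold expo
    rw [map_mul, toAdd_mul, ZMod.val_add]
  by_cases hlt : expo lam g + expo lam g' < n
  · left
    rw [hmod, Nat.mod_eq_of_lt hlt]
  · right
    have hge : n ≤ expo lam g + expo lam g' := not_lt.mp hlt
    have h2 : expo lam g + expo lam g' - n < n := by omega
    have : (expo lam g + expo lam g') % n = expo lam g + expo lam g' - n := by
      rw [Nat.mod_eq_sub_mod hge, Nat.mod_eq_of_lt h2]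
    rw [hmod, this]
    omega

variable {A : Type*} [AddCommGroup A]

/-- **EXT (abstract)**. -/
theorem exists_extension (h₀ : lam g₀ = Multiplicative.ofAdd (1 : ZMod n))
    (ψ : Additive lam.ker →+ A)
    (hinv : ∀ (g : G) (x y : lam.ker), (y : G) = g * x * g⁻¹ →
      ψ (Additive.ofMul y) = ψ (Additive.ofMul x))
    (hn : ψ (Additive.ofMul ⟨g₀ ^ n, pow_n_mem_ker h₀⟩) = 0) :
    ∃ φ : Additive G →+ A,
      (∀ x : lam.ker, φ (Additive.ofMul (x : G)) = ψ (Additive.ofMul x)) ∧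
        φ (Additive.ofMul g₀) = 0 := by
  -- the candidate
  let f : G → A := fun g => ψ (Additive.ofMul (core h₀ g))
  have hf_mul : ∀ g g' : G, f (g * g') = f g + f g' := by
    intro g g'
    set i := expo lam g with hi
    set j := expo lam g' with hj
    set k := expo lam (g * g') with hk
    -- conjugate of `core g` by `g₀ ^ j`
    have hconj_mem : (g₀ ^ j)⁻¹ * (core h₀ g : G) * (g₀ ^ j) ∈ lam.ker := by
      have := (MonoidHom.normal_ker lam).conj_mem (core h₀ g : G) (core h₀ g).2 ((g₀ ^ j)⁻¹)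
      simpa using this
    have hψconj : ψ (Additive.ofMul (⟨(g₀ ^ j)⁻¹ * (core h₀ g : G) * (g₀ ^ j), hconj_mem⟩ :
        lam.ker)) = ψ (Additive.ofMul (core h₀ g)) := by
      refine hinv ((g₀ ^ j)⁻¹) (core h₀ g) _ ?_
      simp
    rcases expo_mul_cases (lam := lam) g g' with h | h
    · -- i + j = k
      rw [← hi, ← hj, ← hk] at h
      have hcore : core h₀ (g * g')
          = (⟨(g₀ ^ j)⁻¹ * (core h₀ g : G) * (g₀ ^ j), hconj_mem⟩ : lam.ker) * core h₀ g' := by
        apply Subtype.ext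
        show (g₀ ^ k)⁻¹ * (g * g') = ((g₀ ^ j)⁻¹ * ((g₀ ^ i)⁻¹ * g) * (g₀ ^ j)) * ((g₀ ^ j)⁻¹ * g')
        have hk' : g₀ ^ k = g₀ ^ i * g₀ ^ j := by rw [← pow_add, ← h]
        rw [hk']
        group
      show ψ (Additive.ofMul (core h₀ (g * g'))) = _
      rw [hcore, ofMul_mul, map_add, hψconj]
    · -- i + j = k + n
      rw [← hi, ← hj, ← hk] at h
      have hcore : core h₀ (g * g')
          = (⟨g₀ ^ n, pow_n_mem_ker h₀⟩ : lam.ker) *
            ((⟨(g₀ ^ j)⁻¹ * (core h₀ g : G) * (g₀ ^ j), hconj_mem⟩ : lam.ker) * core h₀ g') := by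
        apply Subtype.ext
        show (g₀ ^ k)⁻¹ * (g * g')
          = g₀ ^ n * (((g₀ ^ j)⁻¹ * ((g₀ ^ i)⁻¹ * g) * (g₀ ^ j)) * ((g₀ ^ j)⁻¹ * g'))
        have hk' : g₀ ^ i * g₀ ^ j = g₀ ^ k * g₀ ^ n := by rw [← pow_add, ← pow_add, h]
        have hcomm : g₀ ^ k * g₀ ^ n = g₀ ^ n * g₀ ^ k := by
          rw [← pow_add, ← pow_add, add_comm]
        have e1 : (g₀ ^ k)⁻¹ = g₀ ^ n * (g₀ ^ j)⁻¹ * (g₀ ^ i)⁻¹ := by
          have : g₀ ^ n * (g₀ ^ j)⁻¹ * (g₀ ^ i)⁻¹ * g₀ ^ k = 1 := by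
            have h3 : g₀ ^ n * (g₀ ^ j)⁻¹ * (g₀ ^ i)⁻¹ = g₀ ^ n * (g₀ ^ i * g₀ ^ j)⁻¹ := by
              group
            rw [h3, hk', hcomm]
            group
          exact (eq_inv_of_mul_eq_one_left this).symm ▸ rfl
        rw [e1]
        group
      show ψ (Additive.ofMul (core h₀ (g * g'))) = _
      rw [hcore, ofMul_mul, map_add, ofMul_mul, map_add, hψconj, hn, zero_add]
  have hf_one : f 1 = 0 := by
    have := hf_mul 1 1
    rw [one_mul] at this
    have h2 : f 1 + 0 = f 1 + f 1 := by rw [add_zero]; exact this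
    exact (add_left_cancel h2).symm
  refine ⟨AddMonoidHom.mk' (fun a => f (Additive.toMul a)) (fun a b => hf_mul _ _), ?_, ?_⟩
  · intro x
    show ψ (Additive.ofMul (core h₀ (x : G))) = _
    have hx : expo lam (x : G) = 0 := by
      unfold expo
      rw [(MonoidHom.mem_ker).1 x.2]
      simp
    have : core h₀ (x : G) = x := by
      apply Subtype.ext
      show (g₀ ^ expo lam (x : G))⁻¹ * (x : G) = x
      rw [hx]; simp
    rw [this]
  · show ψ (Additive.ofMul (core h₀ g₀)) = 0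
    by_cases h1 : n = 1
    · -- then `g₀ = g₀ ^ n` is in the kernel with `ψ = 0`
      have hx : expo lam g₀ = 0 := by
        have := expo_lt lam g₀
        omega
      have : core h₀ g₀ = ⟨g₀ ^ n, pow_n_mem_ker h₀⟩ := by
        apply Subtype.ext
        show (g₀ ^ expo lam g₀)⁻¹ * g₀ = g₀ ^ n
        rw [hx, h1]; simp
      rw [this, hn]
    · have hn1 : 1 < n := by
        have := NeZero.ne n
        omega
      have hx : expo lam g₀ = 1 := by
        unfold expo
        rw [h₀]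
        show ((1 : ZMod n)).val = 1
        have : Fact (1 < n) := ⟨hn1⟩
        exact ZMod.val_one n
      have : core h₀ g₀ = 1 := by
        apply Subtype.ext
        show (g₀ ^ expo lam g₀)⁻¹ * g₀ = 1
        rw [hx]; simp
      rw [this]
      exact map_zero ψ

end abstract

section gamma

variable (K : ℕ) [NeZero K] {A : Type*} [AddCommGroup A]

/-- **EXT** for `Γ₀(9K) ⊲ Γ₀(3K)`: a character of `Γ₀(9K)` that is invariant under conjugation by
`Γ₀(3K)` and kills `gamma0 ^ 3` extends to a character of `Γ₀(3K)` that kills `gamma0`. -/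
theorem exists_extension_Gamma0 (ψ : Additive (Gamma0 (9 * K)) →+ A)
    (hinv : ∀ g : SL(2, ℤ), g ∈ Gamma0 (3 * K) → ∀ x y : Gamma0 (9 * K),
      (y : SL(2, ℤ)) = g * x * g⁻¹ → ψ (Additive.ofMul y) = ψ (Additive.ofMul x))
    (h3 : ψ (Additive.ofMul ⟨((gamma0 K) ^ 3).1, gamma0_pow_three_mem K⟩) = 0) :
    ∃ φ : Additive (Gamma0 (3 * K)) →+ A,
      (∀ x : Gamma0 (9 * K),
        φ (Additive.ofMul (Subgroup.inclusion (Gamma0_nine_le K) x)) = ψ (Additive.ofMul x)) ∧
        φ (Additive.ofMul (gamma0 K)) = 0 := by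
  -- transport `ψ` to the kernel of `lam`
  have hmem : ∀ x : (lam K).ker, (x : Gamma0 (3 * K)).1 ∈ Gamma0 (9 * K) := by
    intro x
    have h2 : (x : Gamma0 (3 * K)) ∈ (Gamma0 (9 * K)).subgroupOf (Gamma0 (3 * K)) := by
      rw [← lam_ker K]; exact x.2
    exact Subgroup.mem_subgroupOf.1 h2
  let toG : (lam K).ker →* Gamma0 (9 * K) :=
    { toFun := fun x => ⟨(x : Gamma0 (3 * K)).1, hmem x⟩
      map_one' := rfl
      map_mul' := fun _ _ => rfl }
  let ψ' : Additive (lam K).ker →+ A := ψ.comp (MonoidHom.toAdditive toG)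
  have h₀ := lam_gamma0 K
  obtain ⟨φ, hφ, hφ0⟩ := exists_extension (lam := lam K) (g₀ := gamma0 K) h₀ ψ'
    (by
      intro g x y hxy
      show ψ (Additive.ofMul (toG y)) = ψ (Additive.ofMul (toG x))
      refine hinv g.1 g.2 (toG x) (toG y) ?_
      show ((y : Gamma0 (3 * K)) : SL(2, ℤ)) = g.1 * ((x : Gamma0 (3 * K)) : SL(2, ℤ)) * g.1⁻¹
      rw [hxy]
      rfl)
    (by
      show ψ (Additive.ofMul (toG ⟨gamma0 K ^ 3, pow_n_mem_ker h₀⟩)) = 0
      exact h3)
  refine ⟨φ, ?_, hφ0⟩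
  intro x
  have hxker : Subgroup.inclusion (Gamma0_nine_le K) x ∈ (lam K).ker := by
    rw [lam_ker K, Subgroup.mem_subgroupOf]
    exact x.2
  have := hφ ⟨Subgroup.inclusion (Gamma0_nine_le K) x, hxker⟩
  rw [this]
  show ψ (Additive.ofMul (toG ⟨Subgroup.inclusion (Gamma0_nine_le K) x, hxker⟩)) = _
  rfl

/-- uniqueness of the extension. -/
theorem extension_unique (φ φ' : Additive (Gamma0 (3 * K)) →+ A)
    (h : ∀ x : Gamma0 (9 * K),
      φ (Additive.ofMul (Subgroup.inclusion (Gamma0_nine_le K) x))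
        = φ' (Additive.ofMul (Subgroup.inclusion (Gamma0_nine_le K) x)))
    (h0 : φ (Additive.ofMul (gamma0 K)) = φ' (Additive.ofMul (gamma0 K))) : φ = φ' := by
  refine AddMonoidHom.ext fun a => ?_
  obtain ⟨i, -, x, hx, hγ⟩ := exists_pow_mul K (Additive.toMul a)
  have ha : a = i • Additive.ofMul (gamma0 K) + Additive.ofMul x := by
    show Additive.ofMul (Additive.toMul a) = _
    rw [hγ, ofMul_mul, ofMul_pow]
  have hx' : x = Subgroup.inclusion (Gamma0_nine_le K) ⟨x.1, hx⟩ := rfl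
  rw [ha, map_add, map_add, map_nsmul, map_nsmul, h0, hx', h]

end gamma

end Fermat.Agent.W.Chain.LL3.H56
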