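import Mathlib
import Fermat.Prelude.Def_ModularCurve_PeriodMap
import Fermat.Agent.W.Chain.LL3.H56_Ext

/-!
# W-CHAIN, gap LL3, leaf INV (helper56)

* a character `ψ` of `Γ₀(9K)` that is invariant under conjugation by the single element
  `gamma0 = (1 0; 3K 1)` is invariant under conjugation by all of `Γ₀(3K)`;
* `gamma0 ^ n = (1 0; 3Kn 1)` is parabolic, so a parabolic character kills `gamma0 ^ 3`;
* hence: a parabolic, `gamma0`-invariant character of `Γ₀(9K)` extends to a character of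
  `Γ₀(3K)` that kills `gamma0` (`exists_extension_of_parabolic`).
-/

set_option autoImplicit false

open CongruenceSubgroup Matrix
open scoped MatrixGroups

namespace Fermat.Agent.W.Chain.LL3.H56

variable (K : ℕ)

/-- `gamma0 ^ n = (1 0; 3Kn 1)`. -/
theorem gamma0Mat_pow_val (n : ℕ) :
    (((gamma0Mat K) ^ n : SL(2, ℤ)) : Matrix (Fin 2) (Fin 2) ℤ) =
      !![1, 0; ((3 * K : ℕ) : ℤ) * n, 1] := by
  rw [Matrix.SpecialLinearGroup.coe_pow]
  induction n with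
  | zero => simp [Matrix.one_fin_two]
  | succ n ih =>
    rw [pow_succ, ih]
    have : ((gamma0Mat K : SL(2, ℤ)) : Matrix (Fin 2) (Fin 2) ℤ)
        = !![1, 0; ((3 * K : ℕ) : ℤ), 1] := rfl
    rw [this, Matrix.mul_fin_two]
    congr 1
    ext i j
    fin_cases i <;> fin_cases j <;> simp <;> ring

/-- the powers of `gamma0` are parabolic. -/
theorem trace_gamma0Mat_pow (n : ℕ) :
    (((gamma0Mat K) ^ n : SL(2, ℤ)) : Matrix (Fin 2) (Fin 2) ℤ).trace = 2 := by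
  rw [gamma0Mat_pow_val]
  simp [Matrix.trace_fin_two]

variable [NeZero K] {A : Type*} [AddCommGroup A]

/-- conjugation by an element of `Γ₀(3K)` preserves `Γ₀(9K)`. -/
theorem conj_mem_Gamma0_nine {g : SL(2, ℤ)} (hg : g ∈ Gamma0 (3 * K)) {x : SL(2, ℤ)}
    (hx : x ∈ Gamma0 (9 * K)) : g * x * g⁻¹ ∈ Gamma0 (9 * K) := by
  have hn := normal_Gamma0_nine K
  have hx3 : x ∈ Gamma0 (3 * K) := Gamma0_nine_le K hx
  have := hn.conj_mem (⟨x, hx3⟩ : Gamma0 (3 * K))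
    (Subgroup.mem_subgroupOf.2 hx) ⟨g, hg⟩
  exact Subgroup.mem_subgroupOf.1 this

/-- **INV**: invariance under conjugation by `gamma0` implies invariance under conjugation by
`Γ₀(3K)`. -/
theorem invariant_of_gamma0 (ψ : Additive (Gamma0 (9 * K)) →+ A)
    (h : ∀ x y : Gamma0 (9 * K), (y : SL(2, ℤ)) = gamma0Mat K * x * (gamma0Mat K)⁻¹ →
      ψ (Additive.ofMul y) = ψ (Additive.ofMul x)) :
    ∀ g : SL(2, ℤ), g ∈ Gamma0 (3 * K) → ∀ x y : Gamma0 (9 * K),
      (y : SL(2, ℤ)) = g * x * g⁻¹ → ψ (Additive.ofMul y) = ψ (Additive.ofMul x) := by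
  -- conjugation by powers of `gamma0`
  have hpow : ∀ (i : ℕ) (x y : Gamma0 (9 * K)),
      (y : SL(2, ℤ)) = (gamma0Mat K) ^ i * x * ((gamma0Mat K) ^ i)⁻¹ →
        ψ (Additive.ofMul y) = ψ (Additive.ofMul x) := by
    intro i
    induction i with
    | zero =>
      intro x y hxy
      have : y = x := Subtype.ext (by simpa using hxy)
      rw [this]
    | succ i ih =>
      intro x y hxy
      have hmem : (gamma0Mat K) ^ i * x * ((gamma0Mat K) ^ i)⁻¹ ∈ Gamma0 (9 * K) :=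
        conj_mem_Gamma0_nine K ((Gamma0 (3 * K)).pow_mem (gamma0Mat_mem K) i) x.2
      have h1 := ih x ⟨_, hmem⟩ rfl
      have h2 := h ⟨_, hmem⟩ y (by
        rw [hxy, pow_succ']
        show _ = gamma0Mat K * ((gamma0Mat K) ^ i * x * ((gamma0Mat K) ^ i)⁻¹) * (gamma0Mat K)⁻¹
        group)
      rw [h2, h1]
  intro g hg x y hxy
  obtain ⟨i, -, z, hz, hgz⟩ := exists_pow_mul K (⟨g, hg⟩ : Gamma0 (3 * K))
  have hg' : g = (gamma0Mat K) ^ i * (z : SL(2, ℤ)) := by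
    have := congrArg (fun t : Gamma0 (3 * K) => (t : SL(2, ℤ))) hgz
    simpa [gamma0] using this
  -- conjugation by `z ∈ Γ₀(9K)` does not change `ψ`
  have hzx : (z : SL(2, ℤ)) * x * (z : SL(2, ℤ))⁻¹ ∈ Gamma0 (9 * K) :=
    (Gamma0 (9 * K)).mul_mem ((Gamma0 (9 * K)).mul_mem hz x.2) ((Gamma0 (9 * K)).inv_mem hz)
  have e1 : ψ (Additive.ofMul (⟨_, hzx⟩ : Gamma0 (9 * K))) = ψ (Additive.ofMul x) := by
    have : (⟨_, hzx⟩ : Gamma0 (9 * K)) = ⟨z, hz⟩ * x * (⟨z, hz⟩ : Gamma0 (9 * K))⁻¹ := rfl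
    rw [this, ofMul_mul, ofMul_mul, map_add, map_add, ofMul_inv, map_neg]
    abel
  have e2 := hpow i ⟨_, hzx⟩ y (by
    rw [hxy, hg']
    show _ = (gamma0Mat K) ^ i * ((z : SL(2, ℤ)) * x * (z : SL(2, ℤ))⁻¹) * ((gamma0Mat K) ^ i)⁻¹
    group)
  rw [e2, e1]

/-- **EXT for parabolic characters**: a parabolic character of `Γ₀(9K)` that is invariant under
conjugation by `gamma0` extends to a character of `Γ₀(3K)` that kills `gamma0`. -/
theorem exists_extension_of_parabolic (ψ : Additive (Gamma0 (9 * K)) →+ A)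
    (hpar : ModularCurve.Period.IsParabolicHom (Gamma0 (9 * K)) ψ)
    (h : ∀ x y : Gamma0 (9 * K), (y : SL(2, ℤ)) = gamma0Mat K * x * (gamma0Mat K)⁻¹ →
      ψ (Additive.ofMul y) = ψ (Additive.ofMul x)) :
    ∃ φ : Additive (Gamma0 (3 * K)) →+ A,
      (∀ x : Gamma0 (9 * K),
        φ (Additive.ofMul (Subgroup.inclusion (Gamma0_nine_le K) x)) = ψ (Additive.ofMul x)) ∧
        φ (Additive.ofMul (gamma0 K)) = 0 := by
  refine exists_extension_Gamma0 K ψ (invariant_of_gamma0 K ψ h) ?_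
  refine hpar _ ?_
  show (((gamma0 K) ^ 3 : Gamma0 (3 * K)) : SL(2, ℤ)).1.trace ^ 2 = 4
  have : (((gamma0 K) ^ 3 : Gamma0 (3 * K)) : SL(2, ℤ)) = (gamma0Mat K) ^ 3 := rfl
  rw [this, trace_gamma0Mat_pow]
  norm_num

end Fermat.Agent.W.Chain.LL3.H56
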